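import Mathlib
import Fermat.Agent.LT.T7.H62.RigidWhit
import Fermat.Agent.LT.T2.H566.Local

/-!
# Row LT, tower T7, node T7.14 `RigidC`, level 5: LEAF `TorusAsmC`, part 1 (helper683)

OFF-MAIN.  Components of ideles, the exponent `ordI`, the torus elements `dgA y` and the level
groups.  Mathlib + the vocabulary of `RigidWhit.lean`; the density of the level ideal at the
places prime to the level is `integers_subset_idealClosure566` (helper566).  Complete proofs.
-/

set_option autoImplicit false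

open AutomorphicForm IsDedekindDomain NumberField Filter Topology MeasureTheory
open scoped ComplexConjugate

noncomputable section

namespace Fermat.Agent.LT.T7.H683

open Fermat.Agent.LT.H556 Fermat.Agent.LT.H556.A0 Fermat.Agent.LT.T7 Fermat.Agent.LT.T7.Rigid
open Fermat.Agent.LT.T1.H793

variable {K : Type} [Field K] [NumberField K]

/-! ## Components of ideles -/

/-- The component at the finite place `v`, as a homomorphism of unit groups. -/
def finU683 (v : HeightOneSpectrum (𝓞 K)) : (Adl K)ˣ →* (v.adicCompletion K)ˣ :=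
  Units.map ((projFin793 v : Adl K →+* v.adicCompletion K) : Adl K →* v.adicCompletion K)

/-- The component at the infinite place `w`, as a homomorphism of unit groups. -/
def infU683 (w : InfinitePlace K) : (Adl K)ˣ →* (w.Completion)ˣ :=
  Units.map ((projInf793 w : Adl K →+* w.Completion) : Adl K →* w.Completion)

theorem finU683_coe (v : HeightOneSpectrum (𝓞 K)) (y : (Adl K)ˣ) :
    ((finU683 v y : (v.adicCompletion K)ˣ) : v.adicCompletion K) = (y : Adl K).2 v := rfl

theorem infU683_coe (w : InfinitePlace K) (y : (Adl K)ˣ) :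
    ((infU683 w y : (w.Completion)ˣ) : w.Completion) = (y : Adl K).1 w := rfl

theorem fin_eq_one_iff683 (v : HeightOneSpectrum (𝓞 K)) (y : (Adl K)ˣ) :
    (y : Adl K).2 v = 1 ↔ finU683 v y = 1 := by
  rw [← finU683_coe, Units.val_eq_one]

theorem inf_eq_one_iff683 (w : InfinitePlace K) (y : (Adl K)ˣ) :
    (y : Adl K).1 w = 1 ↔ infU683 w y = 1 := by
  rw [← infU683_coe, Units.val_eq_one]

theorem fin_ne_zero683 (v : HeightOneSpectrum (𝓞 K)) (y : (Adl K)ˣ) : (y : Adl K).2 v ≠ 0 := by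
  rw [← finU683_coe]
  exact Units.ne_zero _

theorem val_fin_ne_zero683 (v : HeightOneSpectrum (𝓞 K)) (y : (Adl K)ˣ) :
    Valued.v ((y : Adl K).2 v) ≠ 0 :=
  (Valuation.ne_zero_iff _).2 (fin_ne_zero683 v y)

theorem fin_mul683 (v : HeightOneSpectrum (𝓞 K)) (y y' : (Adl K)ˣ) :
    ((y * y' : (Adl K)ˣ) : Adl K).2 v = (y : Adl K).2 v * (y' : Adl K).2 v := rfl

theorem fin_inv683 (v : HeightOneSpectrum (𝓞 K)) (y : (Adl K)ˣ) :
    ((y⁻¹ : (Adl K)ˣ) : Adl K).2 v = ((y : Adl K).2 v)⁻¹ := by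
  rw [← finU683_coe, ← finU683_coe, map_inv, Units.val_inv_eq_inv_val]

theorem inf_mul683 (w : InfinitePlace K) (y y' : (Adl K)ˣ) :
    ((y * y' : (Adl K)ˣ) : Adl K).1 w = (y : Adl K).1 w * (y' : Adl K).1 w := rfl

theorem inf_inv683 (w : InfinitePlace K) (y : (Adl K)ˣ) :
    ((y⁻¹ : (Adl K)ˣ) : Adl K).1 w = ((y : Adl K).1 w)⁻¹ := by
  rw [← infU683_coe, ← infU683_coe, map_inv, Units.val_inv_eq_inv_val]

/-- An idele is determined by its components. -/
theorem idele_ext683 {y y' : (Adl K)ˣ}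
    (h1 : ∀ w : InfinitePlace K, (y : Adl K).1 w = (y' : Adl K).1 w)
    (h2 : ∀ v : HeightOneSpectrum (𝓞 K), (y : Adl K).2 v = (y' : Adl K).2 v) : y = y' :=
  Units.ext (adl_ext793 h1 h2)

/-- The idele with the finite components of `y` and the infinite components `1`. -/
def finPart683 (y : (Adl K)ˣ) : (Adl K)ˣ :=
  ⟨((1 : InfiniteAdeleRing K), (y : Adl K).2), ((1 : InfiniteAdeleRing K), ((y⁻¹ : (Adl K)ˣ) : Adl K).2),
    Prod.ext (one_mul 1)
      (show (y : Adl K).2 * ((y⁻¹ : (Adl K)ˣ) : Adl K).2 = 1 from congrArg Prod.snd y.mul_inv),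
    Prod.ext (one_mul 1)
      (show ((y⁻¹ : (Adl K)ˣ) : Adl K).2 * (y : Adl K).2 = 1 from congrArg Prod.snd y.inv_mul)⟩

theorem finPart683_fin (y : (Adl K)ˣ) (v : HeightOneSpectrum (𝓞 K)) :
    ((finPart683 y : (Adl K)ˣ) : Adl K).2 v = (y : Adl K).2 v := rfl

theorem finPart683_inf (y : (Adl K)ˣ) (w : InfinitePlace K) :
    ((finPart683 y : (Adl K)ˣ) : Adl K).1 w = 1 := rfl

/-! ## The exponent -/

theorem ordI_mul683 (v : HeightOneSpectrum (𝓞 K)) (y y' : (Adl K)ˣ) :
    ordI v (y * y') = ordI v y + ordI v y' := by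
  unfold ordI
  rw [fin_mul683, map_mul, WithZero.log_mul (val_fin_ne_zero683 v y) (val_fin_ne_zero683 v y')]
  ring

theorem ordI_one683 (v : HeightOneSpectrum (𝓞 K)) : ordI v (1 : (Adl K)ˣ) = 0 := by
  unfold ordI
  have h : ((1 : (Adl K)ˣ) : Adl K).2 v = 1 := rfl
  rw [h, map_one, WithZero.log_one, neg_zero]

theorem ordI_inv683 (v : HeightOneSpectrum (𝓞 K)) (y : (Adl K)ˣ) :
    ordI v y⁻¹ = -ordI v y := by
  have h := ordI_mul683 v y y⁻¹
  rw [mul_inv_cancel, ordI_one683] at h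
  linarith

theorem ordI_pow683 (v : HeightOneSpectrum (𝓞 K)) (y : (Adl K)ˣ) (n : ℕ) :
    ordI v (y ^ n) = n * ordI v y := by
  induction n with
  | zero => simp [ordI_one683]
  | succ n ih => rw [pow_succ, ordI_mul683, ih]; push_cast; ring

theorem ordI_prod683 {ι : Type} (T : Finset ι) (g : ι → (Adl K)ˣ)
    (v : HeightOneSpectrum (𝓞 K)) :
    ordI v (∏ i ∈ T, g i) = ∑ i ∈ T, ordI v (g i) := by
  classical
  induction T using Finset.induction_on with
  | empty => simp [ordI_one683]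
  | insert i T hi ih => rw [Finset.prod_insert hi, Finset.sum_insert hi, ordI_mul683, ih]

theorem ordI_eq_zero_of_val683 {v : HeightOneSpectrum (𝓞 K)} {y : (Adl K)ˣ}
    (h : Valued.v ((y : Adl K).2 v) = 1) : ordI v y = 0 := by
  unfold ordI
  rw [h, WithZero.log_one, neg_zero]

theorem val_eq_one_of_ordI683 {v : HeightOneSpectrum (𝓞 K)} {y : (Adl K)ˣ}
    (h : ordI v y = 0) : Valued.v ((y : Adl K).2 v) = 1 := by
  unfold ordI at h
  have h' : WithZero.log (Valued.v ((y : Adl K).2 v)) = 0 := by linarith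
  have h2 := WithZero.exp_log (val_fin_ne_zero683 v y)
  rw [h'] at h2
  rw [← h2]
  rfl

theorem ordI_congr683 {v : HeightOneSpectrum (𝓞 K)} {y y' : (Adl K)ˣ}
    (h : (y : Adl K).2 v = (y' : Adl K).2 v) : ordI v y = ordI v y' := by
  unfold ordI
  rw [h]

theorem ordI_unif683 {v : HeightOneSpectrum (𝓞 K)} {t : (Adl K)ˣ} (ht : IsUnifIdele v t) :
    ordI v t = 1 := by
  unfold ordI
  rw [ht.2.2, WithZero.log_exp]
  norm_num

theorem ordI_unif_ne683 {v v' : HeightOneSpectrum (𝓞 K)} {t : (Adl K)ˣ} (ht : IsUnifIdele v t)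
    (hv : v' ≠ v) : ordI v' t = 0 :=
  ordI_eq_zero_of_val683 (by rw [ht.2.1 v' hv, map_one])

/-- The exponents of an idele vanish at almost all places. -/
theorem ordI_finite683 (y : (Adl K)ˣ) :
    {v : HeightOneSpectrum (𝓞 K) | ordI v y ≠ 0}.Finite := by
  have h1 : ∀ᶠ v in Filter.cofinite, (y : Adl K).2 v ∈ v.adicCompletionIntegers K :=
    (y : Adl K).2.2
  have h2 : ∀ᶠ v in Filter.cofinite,
      ((y⁻¹ : (Adl K)ˣ) : Adl K).2 v ∈ v.adicCompletionIntegers K :=
    ((y⁻¹ : (Adl K)ˣ) : Adl K).2.2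
  have h3 : ∀ᶠ v in Filter.cofinite, ordI v y = 0 := by
    filter_upwards [h1, h2] with v hv1 hv2
    rw [HeightOneSpectrum.mem_adicCompletionIntegers] at hv1 hv2
    apply ordI_eq_zero_of_val683
    rw [fin_inv683, map_inv₀] at hv2
    refine le_antisymm hv1 ?_
    have hne := val_fin_ne_zero683 v y
    exact (inv_le_one₀ (zero_lt_iff.2 hne)).1 hv2
  exact Filter.eventually_cofinite.1 h3

/-! ## Uniformiser ideles -/

/-- Uniformiser ideles exist (from `MixC` and a principal idele). -/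
theorem exists_unif683 (hM : MixC K) (v : HeightOneSpectrum (𝓞 K)) :
    ∃ t : (Adl K)ˣ, IsUnifIdele v t := by
  classical
  obtain ⟨π₀, hπ₀⟩ := HeightOneSpectrum.valuation_exists_uniformizer K v
  have hne : π₀ ≠ 0 := by
    intro h0
    rw [h0, map_zero] at hπ₀
    exact WithZero.exp_ne_zero.symm hπ₀ |>.elim
  let p : (Adl K)ˣ := Units.map ((algebraMap K (Adl K) : K →+* Adl K) : K →* Adl K)
    (Units.mk0 π₀ hne)
  obtain ⟨t, ht1, ht2⟩ := hM {v} p 1
  refine ⟨t, fun w => ht2.2 w, fun v' hv' => ?_, ?_⟩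
  · exact ht2.1 v' (by simpa using hv')
  · rw [ht1 v (by simp)]
    have hp : (p : Adl K).2 v = algebraMap K (v.adicCompletion K) π₀ := rfl
    rw [hp, Fermat.Agent.LT.T2.H566.valued_algebraMap566, hπ₀]

end Fermat.Agent.LT.T7.H683

end
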