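import Mathlib
import Fermat.Agent.LT.T7.H683.TorusIdele

/-!
# Row LT, tower T7, node T7.14 `RigidC`, level 5: LEAF `TorusAsmC`, part 2 (helper683)

OFF-MAIN.  The torus elements `dgA u` of the unit ideles outside `S` are in every level group
`U(𝔪)`, `𝔪` supported in `S`; the Whittaker function is right invariant under them.
Complete proofs.
-/

set_option autoImplicit false

open AutomorphicForm IsDedekindDomain NumberField Filter Topology MeasureTheory
open scoped ComplexConjugate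

noncomputable section

namespace Fermat.Agent.LT.T7.H683

open Fermat.Agent.LT.H556 Fermat.Agent.LT.H556.A0 Fermat.Agent.LT.T7 Fermat.Agent.LT.T7.Rigid
open Fermat.Agent.LT.T1.H793 Fermat.Agent.LT.T2.H566

variable {K : Type} [Field K] [NumberField K]

/-! ## The torus -/

theorem dgA_val683 (y : (Adl K)ˣ) :
    ((dgA y : G K) : Matrix (Fin 2) (Fin 2) (Adl K)) = !![(y : Adl K), 0; 0, 1] := rfl

theorem dgA_mul683 (y y' : (Adl K)ˣ) : dgA (y * y') = dgA y * dgA y' := by
  apply Units.ext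
  rw [Units.val_mul, dgA_val683, dgA_val683, dgA_val683]
  ext i j
  fin_cases i <;> fin_cases j <;> simp [Matrix.mul_apply, Fin.sum_univ_two]

theorem dgA_inv683 (y : (Adl K)ˣ) : (dgA y)⁻¹ = dgA y⁻¹ := Units.ext rfl

/-- The unit ideles outside `S`: components `1` at the infinite places and at the places of `S`,
units at the other finite places. -/
def IsUnitOff683 (S : Finset (HeightOneSpectrum (𝓞 K))) (u : (Adl K)ˣ) : Prop :=
  (∀ w : InfinitePlace K, (u : Adl K).1 w = 1) ∧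
    (∀ v ∈ S, (u : Adl K).2 v = 1) ∧
    ∀ v : HeightOneSpectrum (𝓞 K), v ∉ S → Valued.v ((u : Adl K).2 v) = 1

theorem IsUnitOff683.inv {S : Finset (HeightOneSpectrum (𝓞 K))} {u : (Adl K)ˣ}
    (hu : IsUnitOff683 S u) : IsUnitOff683 S u⁻¹ := by
  refine ⟨fun w => ?_, fun v hv => ?_, fun v hv => ?_⟩
  · rw [inf_inv683, hu.1 w, inv_one]
  · rw [fin_inv683, hu.2.1 v hv, inv_one]
  · rw [fin_inv683, map_inv₀, hu.2.2 v hv, inv_one]

theorem finComp_dgA_sub_one683 {𝔪 : Ideal (𝓞 K)} {S : Finset (HeightOneSpectrum (𝓞 K))}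
    (hsupp : ∀ v : HeightOneSpectrum (𝓞 K), v.asIdeal ∣ 𝔪 → v ∈ S) {u : (Adl K)ˣ}
    (hu : IsUnitOff683 S u) (v : HeightOneSpectrum (𝓞 K)) (i j : Fin 2) :
    (finComp v (dgA u) - 1) i j ∈ idealClosure 𝔪 v := by
  have h00 : (u : Adl K).2 v - 1 ∈ idealClosure 𝔪 v := by
    by_cases hv : v ∈ S
    · rw [hu.2.1 v hv, sub_self]
      exact zero_mem_idealClosure566 𝔪 v
    · refine integers_subset_idealClosure566 𝔪 v (fun h => hv (hsupp v h)) ?_
      rw [HeightOneSpectrum.mem_adicCompletionIntegers]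
      refine (Valuation.map_sub _ _ _).trans ?_
      rw [hu.2.2 v hv, map_one, max_self]
  have h0 : (0 : v.adicCompletion K) ∈ idealClosure 𝔪 v := zero_mem_idealClosure566 𝔪 v
  have hz : ((0 : Adl K)).2 v = 0 := rfl
  have ho : ((1 : Adl K)).2 v = 1 := rfl
  fin_cases i <;> fin_cases j
  · simpa [finComp, dgA_val683] using h00
  · simpa [finComp, dgA_val683, hz] using h0
  · simpa [finComp, dgA_val683, hz] using h0
  · simpa [finComp, dgA_val683, ho] using h0

theorem inLevelGroup_dgA683 {𝔪 : Ideal (𝓞 K)} {S : Finset (HeightOneSpectrum (𝓞 K))}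
    (hsupp : ∀ v : HeightOneSpectrum (𝓞 K), v.asIdeal ∣ 𝔪 → v ∈ S) {u : (Adl K)ˣ}
    (hu : IsUnitOff683 S u) : InLevelGroup 𝔪 (dgA u) := by
  refine ⟨fun w i j => ?_, fun v i j => ⟨finComp_dgA_sub_one683 hsupp hu v i j, ?_⟩⟩
  · have hz : ((0 : Adl K)).1 w = 0 := rfl
    have ho : ((1 : Adl K)).1 w = 1 := rfl
    fin_cases i <;> fin_cases j
    · simpa [dgA_val683] using hu.1 w
    · simp [dgA_val683, hz]
    · simp [dgA_val683, hz]
    · simp [dgA_val683, ho]
  · rw [dgA_inv683]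
    exact finComp_dgA_sub_one683 hsupp hu.inv v i j

/-! ## The Whittaker function -/

theorem whit_mul_right683 {m : MeasurableSpace (Adl K)} (ψ : AddChar (Adl K) Circle)
    (ν : Measure (Adl K)) (D : Set (Adl K)) {φ : G K → ℂ} {u : G K}
    (hu : ∀ g : G K, φ (g * u) = φ g) (g : G K) :
    whit ψ ν D φ (g * u) = whit ψ ν D φ g := by
  unfold whit
  refine congrArg (fun F : Adl K → ℂ => ∫ x in D, F x ∂ν) ?_
  funext x
  rw [← mul_assoc, hu]

/-- The Whittaker function of an `S`-form on the torus is invariant under the unit ideles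
outside `S`. -/
theorem whit_dgA_unit683 {m : MeasurableSpace (Adl K)} (ψ : AddChar (Adl K) Circle)
    (ν : Measure (Adl K)) (D : Set (Adl K)) {π : HeckeEigensystem K ℂ}
    {S : Finset (HeightOneSpectrum (𝓞 K))} {φ : G K → ℂ} (hφ : IsSForm π S φ)
    {u : (Adl K)ˣ} (hu : IsUnitOff683 S u) (y : (Adl K)ˣ) :
    whit ψ ν D φ (dgA (y * u)) = whit ψ ν D φ (dgA y) := by
  obtain ⟨𝔪, -, hsupp, hinv⟩ := hφ.level_inv
  rw [dgA_mul683]
  exact whit_mul_right683 ψ ν D (hinv (dgA u) (inLevelGroup_dgA683 hsupp hu)) (dgA y)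

end Fermat.Agent.LT.T7.H683

end
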