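import Mathlib
import Fermat.Agent.LT.T7.H683.TorusIdele

/-!
# Row LT, tower T7, node T7.14 `RigidC`, level 5: LEAF `TorusAsmC`, part 3 (helper683)

OFF-MAIN.  The Hecke recursion at one place and at a finite set of places, for an arbitrary
function `W` on the ideles (pure algebra).  Complete proofs.
-/

set_option autoImplicit false

open AutomorphicForm IsDedekindDomain NumberField Filter Topology MeasureTheory
open scoped ComplexConjugate

noncomputable section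

namespace Fermat.Agent.LT.T7.H683

open Fermat.Agent.LT.H556 Fermat.Agent.LT.H556.A0 Fermat.Agent.LT.T7 Fermat.Agent.LT.T7.Rigid

variable {K : Type} [Field K] [NumberField K]

/-- The Hecke recursion at `v` for the function `W` on the ideles, uniformiser `t`. -/
def HeckeAt683 (W : (Adl K)ˣ → ℂ) (v : HeightOneSpectrum (𝓞 K)) (a : ℂ) (t : (Adl K)ˣ) : Prop :=
  ∀ y : (Adl K)ˣ, (ordI v y < 0 → W y = 0) ∧
    (0 ≤ ordI v y →
      ((nv v : ℝ) : ℂ) * W (y * t) + W (y * t⁻¹) = ((Real.sqrt (nv v) : ℝ) : ℂ) * a * W y)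

theorem nv_pos683 (v : HeightOneSpectrum (𝓞 K)) : 0 < nv v := by
  unfold nv
  have h : Ideal.absNorm v.asIdeal ≠ 0 := by
    rw [Ne, Ideal.absNorm_eq_zero_iff]
    exact v.ne_bot
  exact_mod_cast Nat.pos_of_ne_zero h

theorem locFactor_nat683 (v : HeightOneSpectrum (𝓞 K)) (a : ℂ) (n : ℕ) :
    locFactor v a (n : ℤ) = (((Real.sqrt (nv v) : ℝ) : ℂ)⁻¹) ^ n * hpoly a n := by
  unfold locFactor
  rw [if_pos (Int.natCast_nonneg n), Int.toNat_natCast]
  congr 1
  have hq := nv_pos683 v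
  have h1 : nv v ^ (-((n : ℤ) : ℝ) / 2) = (Real.sqrt (nv v))⁻¹ ^ n := by
    rw [Real.sqrt_eq_rpow, ← Real.rpow_neg hq.le, ← Real.rpow_natCast, ← Real.rpow_mul hq.le]
    congr 1
    push_cast
    ring
  rw [h1]
  push_cast
  rfl

theorem locFactor_zero683 (v : HeightOneSpectrum (𝓞 K)) (a : ℂ) : locFactor v a 0 = 1 := by
  have h := locFactor_nat683 v a 0
  simpa [hpoly] using h

theorem locFactor_neg683 (v : HeightOneSpectrum (𝓞 K)) (a : ℂ) {m : ℤ} (hm : m < 0) :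
    locFactor v a m = 0 := by
  unfold locFactor
  rw [if_neg (not_le.2 hm)]

/-- The recursion at one place: `W(y₀ tⁿ) = locFactor v a n · W(y₀)` if `ord_v y₀ = 0`. -/
theorem hecke_pow683 {W : (Adl K)ˣ → ℂ} {v : HeightOneSpectrum (𝓞 K)} {a : ℂ} {t : (Adl K)ˣ}
    (ht : IsUnifIdele v t) (hrec : HeckeAt683 W v a t) (y₀ : (Adl K)ˣ) (h0 : ordI v y₀ = 0)
    (n : ℕ) : W (y₀ * t ^ n) = locFactor v a (n : ℤ) * W y₀ := by
  have hq := nv_pos683 v
  have hs : (0 : ℝ) < Real.sqrt (nv v) := Real.sqrt_pos.2 hq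
  have hσ : ((Real.sqrt (nv v) : ℝ) : ℂ) ≠ 0 := by exact_mod_cast hs.ne'
  have hqσ : ((nv v : ℝ) : ℂ) = ((Real.sqrt (nv v) : ℝ) : ℂ) ^ 2 := by
    rw [← Complex.ofReal_pow, Real.sq_sqrt hq.le]
  have hord : ∀ k : ℕ, ordI v (y₀ * t ^ k) = k := by
    intro k
    rw [ordI_mul683, ordI_pow683, h0, ordI_unif683 ht]
    ring
  obtain ⟨σ, hσdef⟩ : ∃ σ : ℂ, σ = ((Real.sqrt (nv v) : ℝ) : ℂ) := ⟨_, rfl⟩
  rw [← hσdef] at hσ hqσ
  have hτ : σ * σ⁻¹ = 1 := mul_inv_cancel₀ hσ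
  have hsq : σ ^ 2 ≠ 0 := pow_ne_zero 2 hσ
  have hloc : ∀ k : ℕ, locFactor v a (k : ℤ) = σ⁻¹ ^ k * hpoly a k := by
    intro k
    rw [locFactor_nat683, hσdef]
  have hrec' : ∀ y : (Adl K)ˣ, 0 ≤ ordI v y →
      σ ^ 2 * W (y * t) + W (y * t⁻¹) = σ * a * W y := by
    intro y hy
    have h := (hrec y).2 hy
    rw [hqσ, ← hσdef] at h
    exact h
  have key : ∀ k : ℕ, W (y₀ * t ^ k) = locFactor v a (k : ℤ) * W y₀ ∧
      W (y₀ * t ^ (k + 1)) = locFactor v a ((k + 1 : ℕ) : ℤ) * W y₀ := by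
    intro k
    induction k with
    | zero =>
      have h1 : W (y₀ * t ^ 0) = locFactor v a ((0 : ℕ) : ℤ) * W y₀ := by
        rw [pow_zero, mul_one, Nat.cast_zero, locFactor_zero683, one_mul]
      refine ⟨h1, ?_⟩
      have hr := hrec' y₀ (by rw [h0])
      have hneg : W (y₀ * t⁻¹) = 0 := by
        refine (hrec (y₀ * t⁻¹)).1 ?_
        rw [ordI_mul683, ordI_inv683, h0, ordI_unif683 ht]
        norm_num
      rw [hneg, add_zero] at hr
      rw [zero_add, pow_one, hloc]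
      have hp1 : hpoly a 1 = a := by rw [hpoly]
      rw [hp1, pow_one]
      apply mul_left_cancel₀ hsq
      linear_combination hr + (-(σ * a * W y₀)) * hτ
    | succ k ih =>
      refine ⟨ih.2, ?_⟩
      have hr := hrec' (y₀ * t ^ (k + 1)) (by rw [hord]; positivity)
      have e1 : y₀ * t ^ (k + 1) * t = y₀ * t ^ (k + 1 + 1) := by
        rw [mul_assoc, ← pow_succ]
      have e2 : y₀ * t ^ (k + 1) * t⁻¹ = y₀ * t ^ k := by
        rw [pow_succ, ← mul_assoc, mul_inv_cancel_right]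
      rw [e1, e2, ih.1, ih.2, hloc, hloc] at hr
      rw [hloc]
      have hp : hpoly a (k + 1 + 1) = a * hpoly a (k + 1) - hpoly a k := by
        rw [hpoly]
      rw [hp]
      apply mul_left_cancel₀ hsq
      linear_combination hr + (-(a * hpoly a (k + 1) * W y₀ * σ⁻¹ ^ k * σ * σ⁻¹)
        + hpoly a k * W y₀ * σ⁻¹ ^ k * (1 + σ * σ⁻¹)) * hτ
  exact (key n).1

/-- The recursion at a finite set of places. -/
theorem hecke_prod683 {W : (Adl K)ˣ → ℂ} {a : HeightOneSpectrum (𝓞 K) → ℂ}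
    (t : HeightOneSpectrum (𝓞 K) → (Adl K)ˣ) (ht : ∀ v, IsUnifIdele v (t v))
    (n : HeightOneSpectrum (𝓞 K) → ℕ) (T : Finset (HeightOneSpectrum (𝓞 K)))
    (hrec : ∀ v ∈ T, HeckeAt683 W v (a v) (t v)) (y₀ : (Adl K)ˣ)
    (h0 : ∀ v ∈ T, ordI v y₀ = 0) :
    W (y₀ * ∏ v ∈ T, t v ^ n v) = (∏ v ∈ T, locFactor v (a v) (n v : ℤ)) * W y₀ := by
  classical
  induction T using Finset.induction_on generalizing y₀ with
  | empty => simp
  | insert v T hv ih =>
    rw [Finset.prod_insert hv, Finset.prod_insert hv, ← mul_assoc]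
    have hrec' : ∀ v' ∈ T, HeckeAt683 W v' (a v') (t v') := fun v' hv' =>
      hrec v' (Finset.mem_insert_of_mem hv')
    have h0' : ∀ v' ∈ T, ordI v' (y₀ * t v ^ n v) = 0 := by
      intro v' hv'
      have hne : v' ≠ v := fun h => hv (h ▸ hv')
      rw [ordI_mul683, ordI_pow683, h0 v' (Finset.mem_insert_of_mem hv'),
        ordI_unif_ne683 (ht v) hne]
      ring
    rw [ih hrec' (y₀ * t v ^ n v) h0',
      hecke_pow683 (ht v) (hrec v (Finset.mem_insert_self v T)) y₀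
        (h0 v (Finset.mem_insert_self v T)) (n v)]
    ring

open Classical in
/-- The exponents of a product of powers of uniformisers. -/
theorem ordI_unif_prod683 (t : HeightOneSpectrum (𝓞 K) → (Adl K)ˣ)
    (ht : ∀ v, IsUnifIdele v (t v)) (n : HeightOneSpectrum (𝓞 K) → ℕ)
    (T : Finset (HeightOneSpectrum (𝓞 K))) (v : HeightOneSpectrum (𝓞 K)) :
    ordI v (∏ v' ∈ T, t v' ^ n v') = if v ∈ T then (n v : ℤ) else 0 := by
  classical
  rw [ordI_prod683]
  have h : ∀ v' ∈ T, ordI v (t v' ^ n v') = if v = v' then (n v' : ℤ) else 0 := by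
    intro v' _
    rw [ordI_pow683]
    by_cases hvv : v = v'
    · subst hvv
      rw [if_pos rfl, ordI_unif683 (ht v), mul_one]
    · rw [if_neg hvv, ordI_unif_ne683 (ht v') hvv, mul_zero]
  rw [Finset.sum_congr rfl h, Finset.sum_ite_eq]

/-- The components of a product of powers of uniformisers at the places outside the set. -/
theorem fin_unif_prod683 (t : HeightOneSpectrum (𝓞 K) → (Adl K)ˣ)
    (ht : ∀ v, IsUnifIdele v (t v)) (n : HeightOneSpectrum (𝓞 K) → ℕ)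
    (T : Finset (HeightOneSpectrum (𝓞 K))) {v : HeightOneSpectrum (𝓞 K)} (hv : v ∉ T) :
    ((∏ v' ∈ T, t v' ^ n v' : (Adl K)ˣ) : Adl K).2 v = 1 := by
  rw [fin_eq_one_iff683, map_prod]
  refine Finset.prod_eq_one fun v' hv' => ?_
  have hne : v ≠ v' := fun h => hv (h ▸ hv')
  rw [map_pow, (fin_eq_one_iff683 v (t v')).1 ((ht v').2.1 v hne), one_pow]

theorem inf_unif_prod683 (t : HeightOneSpectrum (𝓞 K) → (Adl K)ˣ)
    (ht : ∀ v, IsUnifIdele v (t v)) (n : HeightOneSpectrum (𝓞 K) → ℕ)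
    (T : Finset (HeightOneSpectrum (𝓞 K))) (w : InfinitePlace K) :
    ((∏ v' ∈ T, t v' ^ n v' : (Adl K)ˣ) : Adl K).1 w = 1 := by
  rw [inf_eq_one_iff683, map_prod]
  refine Finset.prod_eq_one fun v' _ => ?_
  rw [map_pow, (inf_eq_one_iff683 w (t v')).1 ((ht v').1 w), one_pow]

end Fermat.Agent.LT.T7.H683

end
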