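import Mathlib
import Fermat.Agent.LT.T7.H683.TorusLevel
import Fermat.Agent.LT.T7.H683.TorusRec
import Fermat.Agent.LT.T7.H627.Weight

/-!
# Row LT, tower T7, node T7.14 `RigidC`, level 5: LEAF `TorusAsmC` (helper683)

OFF-MAIN.  `torusAsmC_683 : Rigid.TorusAsmC K` verbatim against `LT/T7/H62/RigidWhit.lean` of
helper62 (sha256 ba7c5f11):

`HeckeRecC K → ArchUniqC K → WhitInheritC K → MixC K → TorusC K`.

Proof: `c` = the constants of `ArchUniqC`; `f(y) = W(a(y^S)) / archProfile c 1`, `y^S` the idele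
of `MixC S y 1`.  For an idele `y` with `ord_v y ≥ 0` outside `S`: `y₁` = finite part of `y`,
`y₁ = y^S · ∏_{v ∈ T} t_v^{ord_v y} · u` with `u` a unit idele outside `S`, so
`W(a(y)) P(1) = W(a(y₁)) P(y)` (archimedean uniqueness), `W(a(y₁)) = W(a(y^S ∏ t_v^{n_v}))`
(level invariance) `= ∏_{v ∈ T} locFactor · W(a(y^S))` (Hecke recursion).  If `ord_v y < 0` for
some `v ∉ S` both sides vanish.  Assets: `integers_subset_idealClosure566` (helper566),
`besselK0_pos627` (helper627).  Complete proof, nothing assumed.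
-/

set_option autoImplicit false

open AutomorphicForm IsDedekindDomain NumberField Filter Topology MeasureTheory
open scoped ComplexConjugate

noncomputable section

namespace Fermat.Agent.LT.T7.H683

open Fermat.Agent.LT.H556 Fermat.Agent.LT.H556.A0 Fermat.Agent.LT.T7 Fermat.Agent.LT.T7.Rigid

variable {K : Type} [Field K] [NumberField K]

theorem archProfile_finPart683 (c : InfinitePlace K → ℝ) (y : (Adl K)ˣ) :
    archProfile c (finPart683 y) = archProfile c (1 : (Adl K)ˣ) := by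
  unfold archProfile
  refine Finset.prod_congr rfl fun w _ => ?_
  rw [finPart683_inf]
  rfl

theorem archProfile_one_pos683 {c : InfinitePlace K → ℝ} (hc : ∀ w, 0 < c w) :
    0 < archProfile c (1 : (Adl K)ˣ) := by
  unfold archProfile
  refine Finset.prod_pos fun w _ => ?_
  have h1 : ((1 : (Adl K)ˣ) : Adl K).1 w = 1 := rfl
  rw [h1, norm_one, mul_one, one_mul]
  exact Fermat.Agent.LT.T7.H627.besselK0_pos627 (hc w)

/-- The formula on the torus, for a function `W` on the ideles with the three properties. -/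
theorem torus_formula683 {W : (Adl K)ˣ → ℂ} {a : HeightOneSpectrum (𝓞 K) → ℂ}
    {S : Finset (HeightOneSpectrum (𝓞 K))} {c : InfinitePlace K → ℝ} (hc : ∀ w, 0 < c w)
    (t : HeightOneSpectrum (𝓞 K) → (Adl K)ˣ) (ht : ∀ v, IsUnifIdele v (t v))
    (hrec : ∀ v : HeightOneSpectrum (𝓞 K), v ∉ S → HeckeAt683 W v (a v) (t v))
    (hunit : ∀ u : (Adl K)ˣ, IsUnitOff683 S u → ∀ y : (Adl K)ˣ, W (y * u) = W y)
    (harch : ∀ y y' : (Adl K)ˣ,
      (∀ v : HeightOneSpectrum (𝓞 K), (y : Adl K).2 v = (y' : Adl K).2 v) →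
      W y * ((archProfile c y' : ℝ) : ℂ) = W y' * ((archProfile c y : ℝ) : ℂ))
    (y z : (Adl K)ˣ) (hz1 : SameAt S z y) (hz2 : SameOff S z 1) :
    W y = W z / ((archProfile c (1 : (Adl K)ˣ) : ℝ) : ℂ) * kirOut a S c y := by
  classical
  have hP₁ : ((archProfile c (1 : (Adl K)ˣ) : ℝ) : ℂ) ≠ 0 := by
    exact_mod_cast (archProfile_one_pos683 (K := K) hc).ne'
  have hfin := ordI_finite683 y
  have hsupp : Function.mulSupport
      (fun v : HeightOneSpectrum (𝓞 K) =>
        if v ∈ S then (1 : ℂ) else locFactor v (a v) (ordI v y)) ⊆ {v | ordI v y ≠ 0} := by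
    intro v hv
    rw [Function.mem_mulSupport] at hv
    intro h0
    apply hv
    by_cases hvS : v ∈ S
    · rw [if_pos hvS]
    · rw [if_neg hvS, h0, locFactor_zero683]
  unfold kirOut
  by_cases hneg : ∃ v : HeightOneSpectrum (𝓞 K), v ∉ S ∧ ordI v y < 0
  · obtain ⟨v, hvS, hv⟩ := hneg
    have h1 : W y = 0 := (hrec v hvS y).1 hv
    have h2 : ∏ᶠ v : HeightOneSpectrum (𝓞 K),
        (if v ∈ S then (1 : ℂ) else locFactor v (a v) (ordI v y)) = 0 :=
      finprod_eq_zero _ v (by rw [if_neg hvS, locFactor_neg683 _ _ hv]) (hfin.subset hsupp)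
    rw [h1, h2, mul_zero, mul_zero]
  · have hnn : ∀ v : HeightOneSpectrum (𝓞 K), v ∉ S → 0 ≤ ordI v y := by
      intro v hv
      by_contra h
      exact hneg ⟨v, hv, not_le.1 h⟩
    obtain ⟨T, hTdef⟩ : ∃ T : Finset (HeightOneSpectrum (𝓞 K)),
        T = hfin.toFinset.filter (fun v => v ∉ S) := ⟨_, rfl⟩
    obtain ⟨n, hndef⟩ : ∃ n : HeightOneSpectrum (𝓞 K) → ℕ, n = fun v => (ordI v y).toNat :=
      ⟨_, rfl⟩
    have hn : ∀ v : HeightOneSpectrum (𝓞 K), v ∉ S → (n v : ℤ) = ordI v y := by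
      intro v hv
      rw [hndef]
      exact Int.toNat_of_nonneg (hnn v hv)
    have hTS : ∀ v ∈ T, v ∉ S := by
      intro v hv
      rw [hTdef, Finset.mem_filter] at hv
      exact hv.2
    have hTout : ∀ v : HeightOneSpectrum (𝓞 K), v ∉ S → v ∉ T → ordI v y = 0 := by
      intro v hvS hvT
      by_contra h
      apply hvT
      rw [hTdef, Finset.mem_filter, Set.Finite.mem_toFinset]
      exact ⟨h, hvS⟩
    have hST : ∀ v ∈ S, v ∉ T := fun v hv hvT => hTS v hvT hv
    have hz0 : ∀ v : HeightOneSpectrum (𝓞 K), v ∉ S → ordI v z = 0 := by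
      intro v hv
      apply ordI_eq_zero_of_val683
      rw [hz2.1 v hv]
      have h1 : ((1 : (Adl K)ˣ) : Adl K).2 v = 1 := rfl
      rw [h1, map_one]
    obtain ⟨b, hb⟩ : ∃ b : (Adl K)ˣ, b = z * ∏ v ∈ T, t v ^ n v := ⟨_, rfl⟩
    obtain ⟨u, hu⟩ : ∃ u : (Adl K)ˣ, u = b⁻¹ * finPart683 y := ⟨_, rfl⟩
    have hy₁ : finPart683 y = b * u := by
      rw [hu, mul_inv_cancel_left]
    have huU : IsUnitOff683 S u := by
      refine ⟨fun w => ?_, fun v hv => ?_, fun v hv => ?_⟩
      · have h1 : ((1 : (Adl K)ˣ) : Adl K).1 w = 1 := rfl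
        rw [hu, hb, inf_mul683, inf_inv683, inf_mul683, hz2.2 w, inf_unif_prod683 t ht n T w,
          finPart683_inf, h1]
        simp
      · rw [hu, hb, fin_mul683, fin_inv683, fin_mul683, hz1 v hv,
          fin_unif_prod683 t ht n T (hST v hv), finPart683_fin, mul_one]
        exact inv_mul_cancel₀ (fin_ne_zero683 v y)
      · apply val_eq_one_of_ordI683
        have h1 : ordI v (finPart683 y) = ordI v y := ordI_congr683 (finPart683_fin y v)
        rw [hu, hb, ordI_mul683, ordI_inv683, ordI_mul683, hz0 v hv,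
          ordI_unif_prod683 t ht n T v, h1]
        by_cases hvT : v ∈ T
        · rw [if_pos hvT, hn v hv]
          ring
        · rw [if_neg hvT, hTout v hv hvT]
          ring
    have hA := harch y (finPart683 y) (fun v => (finPart683_fin y v).symm)
    rw [archProfile_finPart683] at hA
    have hWy₁ : W (finPart683 y) = (∏ v ∈ T, locFactor v (a v) (n v : ℤ)) * W z := by
      rw [hy₁, hunit u huU b, hb]
      exact hecke_prod683 t ht n T (fun v hv => hrec v (hTS v hv)) z
        (fun v hv => hz0 v (hTS v hv))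
    have hprod : ∏ᶠ v : HeightOneSpectrum (𝓞 K),
        (if v ∈ S then (1 : ℂ) else locFactor v (a v) (ordI v y))
          = ∏ v ∈ T, locFactor v (a v) (n v : ℤ) := by
      rw [finprod_eq_prod_of_mulSupport_subset (s := T)]
      · refine Finset.prod_congr rfl fun v hv => ?_
        rw [if_neg (hTS v hv), hn v (hTS v hv)]
      · intro v hv
        have hv' := hv
        rw [Function.mem_mulSupport] at hv'
        have hvS : v ∉ S := fun h => hv' (if_pos h)
        rw [hTdef, Finset.coe_filter, Set.mem_ofPred_eq, Set.Finite.mem_toFinset]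
        exact ⟨hsupp hv, hvS⟩
    rw [hprod]
    rw [hWy₁] at hA
    field_simp
    linear_combination hA

/-- **LEAF TORUS-ASM**, verbatim. -/
theorem torusAsmC_683 : TorusAsmC K := by
  classical
  intro hHR hAU hWI hM hcplx ψ hstd hnd ν D hνH hDm hDf hDfin
  obtain ⟨c, hc, hAU'⟩ := hAU hcplx ψ hstd hnd
  refine ⟨c, hc, fun π S φ hun hφ => ?_⟩
  have hArch := hAU' (whit ψ ν D φ) (hWI ψ hstd ν D hνH hDm hDf hDfin π S φ hφ)
  choose t ht using exists_unif683 hM
  choose zf hzf1 hzf2 using fun y : (Adl K)ˣ => hM S y 1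
  have hrec : ∀ v : HeightOneSpectrum (𝓞 K), v ∉ S →
      HeckeAt683 (fun y => whit ψ ν D φ (dgA y)) v (π.a v) (t v) := fun v hv y =>
    hHR hcplx ψ hstd hnd ν D hνH hDm hDf hDfin π S φ hun hφ v hv y (t v) (ht v)
  refine ⟨fun y => whit ψ ν D φ (dgA (zf y)) / ((archProfile c (1 : (Adl K)ˣ) : ℝ) : ℂ),
    ?_, ?_⟩
  · intro y y' hyy'
    have hzz : zf y = zf y' := by
      refine idele_ext683 (fun w => ?_) (fun v => ?_)
      · rw [(hzf2 y).2 w, (hzf2 y').2 w]
      · by_cases hv : v ∈ S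
        · rw [hzf1 y v hv, hzf1 y' v hv, hyy' v hv]
        · rw [(hzf2 y).1 v hv, (hzf2 y').1 v hv]
    simp only [hzz]
  · intro y
    exact torus_formula683 (W := fun y => whit ψ ν D φ (dgA y)) hc t ht hrec
      (fun u hu y => whit_dgA_unit683 ψ ν D hφ hu y) (fun y y' h => hArch y y' h)
      y (zf y) (hzf1 y) (hzf2 y)

end Fermat.Agent.LT.T7.H683

end
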